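/-
S56, node [LOC-p-ORD] (owner helper1), prefix `s56o_`.

THE SEAM OF CELL (C) [KUM] (helper23): `dim_k H¹_lc(D_p, k(ω)) ≤ 2`, in spanning form, for
`D_p` = the decomposition group of `padicPlace p` in `G_ℚ` and `ω` = the mod `p` cyclotomic
character (`cycloExp p σ`, cast to `k`).

`s56o_IsZ p D f` : `f : G_ℚ → k` is, on the subgroup `D`, a finite-level `ω`-cocycle
(`f (σ τ) = f σ + ω(σ) f τ` for `σ τ ∈ D`; nothing is asked outside `D`).
`s56o_Kum_stmt` : there are two such cocycles spanning all of them modulo the coboundaries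
`σ ↦ (ω(σ) - 1) x`.
-/
import Mathlib
import Fermat.Prelude.Def_ExtCitation_AdmissibleExtension
import Fermat.Prelude.Def_GaloisRep_CompletionBridge

set_option autoImplicit false

namespace Fermat.Agent.S56

open ExtCitation

/-- `f` is, on the subgroup `D`, a finite-level cocycle with values in `k(ω)`. -/
def s56o_IsZ (p : ℕ) [Fact p.Prime] {k : Type} [Field k]
    (D : Subgroup (AlgebraicClosure ℚ ≃ₐ[ℚ] AlgebraicClosure ℚ))
    (f : (AlgebraicClosure ℚ ≃ₐ[ℚ] AlgebraicClosure ℚ) → k) : Prop :=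
  (∀ σ ∈ D, ∀ τ ∈ D, f (σ * τ) = f σ + (cycloExp p σ : k) * f τ) ∧
  ∃ L : IntermediateField ℚ (AlgebraicClosure ℚ), FiniteDimensional ℚ L ∧
    ∀ σ ∈ D, ∀ s ∈ D, (∀ x ∈ L, s x = x) → f (σ * s) = f σ

/-- **(C) [KUM]**, spanning form: `dim_k H¹_lc(D_p, k(ω)) ≤ 2`. -/
def s56o_Kum_stmt : Prop :=
  ∀ (p : ℕ) [Fact p.Prime], p ≠ 2 → ∀ (k : Type) [Field k] [Finite k] [Algebra (ZMod p) k],
    ∃ f₁ f₂ : (AlgebraicClosure ℚ ≃ₐ[ℚ] AlgebraicClosure ℚ) → k,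
      s56o_IsZ p ((padicPlace p).decompositionSubgroup ℚ) f₁ ∧
      s56o_IsZ p ((padicPlace p).decompositionSubgroup ℚ) f₂ ∧
      ∀ f : (AlgebraicClosure ℚ ≃ₐ[ℚ] AlgebraicClosure ℚ) → k,
        s56o_IsZ p ((padicPlace p).decompositionSubgroup ℚ) f →
        ∃ a₁ a₂ x : k, ∀ σ ∈ (padicPlace p).decompositionSubgroup ℚ,
          f σ = a₁ * f₁ σ + a₂ * f₂ σ + ((cycloExp p σ : k) - 1) * x

end Fermat.Agent.S56
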