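/-
S56, node [LOC-p-ORD] (owner helper1), cell (A) [ALG] (helper17):
A STRICT-ORDINARY `k[ε]`-DEFORMATION HAS ITS COCYCLE IN `W₀ = Hom(V̄/L̄, L̄)` UP TO A COBOUNDARY.

Matrix level, on helper9's `s56t_bar`, `s56t_coc` (`S56/Tan/Cocycle.lean`).

ABSTRACT LAYER (no Galois group; one matrix `R = B + ε N` over `k[ε]` at a time, a vector
`b₀ = u₀ + ε u₁`, eigenvalues `x`, `z : k[ε]`, and `m` with `m u₀ = u₁`):
* `s56oa_core`    : `R b₀ = x b₀`, `R v - z v ∈ k[ε] b₀` for all `v`  ⟹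
                    `B u₀ = x₀ u₀`, `B v - z₀ v ∈ k u₀`, and `N' := N + (B m - m B)` satisfies
                    `N' u₀ = x₁ u₀`, `N' v - z₁ v ∈ k u₀`  (BOREL form: general `x`, `z`);
* `s56oa_core_coc`: if moreover `x₁ = z₁ = 0`: `c' := N' B⁻¹` satisfies `c' u₀ = 0`, `c' v ∈ k u₀`
                    (the `W₀` form);
* `s56oa_det_eq`  : `det R = x z` (any commutative ring);
* `s56oa_sq_one`  : `z² = 1` in `k[ε]`, `2 ≠ 0` ⟹ `z` has no `ε`-part;
* `s56oa_line_unique` : uniqueness of the line `L̄` when `x̄' ≠ z̄` for one element;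
* `s56oa_W0`, `s56oa_W0_trace`, `s56oa_W0_conj` : the `k`-space `W₀ = {N | N u₀ = 0, N v ∈ k u₀}`,
                    it lies in trace zero, and `B N B⁻¹ = (x̄ / z̄) N` on it.
CONCRETE: `s56oa_main` (for `r : FramedRep (DualNumber k)`, `DetIsCyclotomic p`,
`IsStrictOrdinaryAt p`, `p = 0` and `2 ≠ 0` in `k`, `P | p`).
Prefix `s56oa_`.
-/
import Mathlib
import Fermat.Prelude.Def_GaloisRep_LocalConditions
import Fermat.Prelude.Def_GaloisRep_StrictOrdinary
import Fermat.Agent.S56.Tan.Cocycle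

set_option autoImplicit false
set_option linter.unusedSectionVars false

namespace Fermat.Agent.S56

open Fermat.Agent.S53 Matrix

noncomputable section

variable {k : Type} [Field k]

/-! ### vectors over the dual numbers -/

/-- the reduction mod `ε` of a vector over `k[ε]` -/
def s56oa_vfst (v : Fin 2 → DualNumber k) : Fin 2 → k := fun i => (v i).fst

/-- the `ε`-part of a vector over `k[ε]` -/
def s56oa_vsnd (v : Fin 2 → DualNumber k) : Fin 2 → k := fun i => (v i).snd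

/-- the constant lift of a vector over `k` -/
def s56oa_vinl (v : Fin 2 → k) : Fin 2 → DualNumber k := fun i => TrivSqZeroExt.inl (v i)

@[simp] theorem s56oa_vfst_vinl (v : Fin 2 → k) : s56oa_vfst (s56oa_vinl v) = v := rfl

@[simp] theorem s56oa_vsnd_vinl (v : Fin 2 → k) : s56oa_vsnd (s56oa_vinl v) = 0 := rfl

theorem s56oa_vfst_mulVec (M : Matrix (Fin 2) (Fin 2) (DualNumber k))
    (v : Fin 2 → DualNumber k) :
    s56oa_vfst (M *ᵥ v) = s56t_fst M *ᵥ s56oa_vfst v := by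
  funext i
  simp only [s56oa_vfst, Matrix.mulVec, dotProduct, s56t_fst_apply, TrivSqZeroExt.fst_sum,
    TrivSqZeroExt.fst_mul]

theorem s56oa_vsnd_mulVec (M : Matrix (Fin 2) (Fin 2) (DualNumber k))
    (v : Fin 2 → DualNumber k) :
    s56oa_vsnd (M *ᵥ v) = s56t_fst M *ᵥ s56oa_vsnd v + s56t_snd M *ᵥ s56oa_vfst v := by
  funext i
  simp only [s56oa_vsnd, s56oa_vfst, Matrix.mulVec, dotProduct, Pi.add_apply, s56t_fst_apply,
    s56t_snd_apply, TrivSqZeroExt.snd_sum, DualNumber.snd_mul, Finset.sum_add_distrib]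

theorem s56oa_vfst_smul (a : DualNumber k) (v : Fin 2 → DualNumber k) :
    s56oa_vfst (a • v) = a.fst • s56oa_vfst v := by
  funext i
  simp only [s56oa_vfst, Pi.smul_apply, smul_eq_mul, TrivSqZeroExt.fst_mul]

theorem s56oa_vsnd_smul (a : DualNumber k) (v : Fin 2 → DualNumber k) :
    s56oa_vsnd (a • v) = a.fst • s56oa_vsnd v + a.snd • s56oa_vfst v := by
  funext i
  simp only [s56oa_vsnd, s56oa_vfst, Pi.smul_apply, Pi.add_apply, smul_eq_mul,
    DualNumber.snd_mul]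

theorem s56oa_vfst_sub (v w : Fin 2 → DualNumber k) :
    s56oa_vfst (v - w) = s56oa_vfst v - s56oa_vfst w := by
  funext i
  simp only [s56oa_vfst, Pi.sub_apply, TrivSqZeroExt.fst_sub]

theorem s56oa_vsnd_sub (v w : Fin 2 → DualNumber k) :
    s56oa_vsnd (v - w) = s56oa_vsnd v - s56oa_vsnd w := by
  funext i
  simp only [s56oa_vsnd, Pi.sub_apply, TrivSqZeroExt.snd_sub]

/-! ### the abstract layer -/

/-- **Borel form.**  `R = B + ε N` stabilises the line of `b₀ = u₀ + ε u₁` with eigenvalue `x`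
and acts by `z` on the quotient; `m u₀ = u₁`.  Then `B` stabilises `k u₀` (eigenvalues `x₀`, `z₀`)
and the twisted `ε`-part `N' = N + (B m - m B)` is upper triangular w.r.t. `k u₀` with diagonal
`(x₁, z₁)`. -/
theorem s56oa_core (R : Matrix (Fin 2) (Fin 2) (DualNumber k)) (b₀ : Fin 2 → DualNumber k)
    (x z : DualNumber k) (m : Matrix (Fin 2) (Fin 2) k)
    (hm : m *ᵥ s56oa_vfst b₀ = s56oa_vsnd b₀)
    (hx : R *ᵥ b₀ = x • b₀)
    (hz : ∀ v : Fin 2 → DualNumber k, ∃ α : DualNumber k, R *ᵥ v - z • v = α • b₀) :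
    s56t_fst R *ᵥ s56oa_vfst b₀ = x.fst • s56oa_vfst b₀ ∧
    (∀ v : Fin 2 → k, ∃ t : k, s56t_fst R *ᵥ v - z.fst • v = t • s56oa_vfst b₀) ∧
    (s56t_snd R + (s56t_fst R * m - m * s56t_fst R)) *ᵥ s56oa_vfst b₀ =
      x.snd • s56oa_vfst b₀ ∧
    (∀ v : Fin 2 → k, ∃ t : k,
      (s56t_snd R + (s56t_fst R * m - m * s56t_fst R)) *ᵥ v - z.snd • v =
        t • s56oa_vfst b₀) := by
  have e1 : s56t_fst R *ᵥ s56oa_vfst b₀ = x.fst • s56oa_vfst b₀ := by
    have := congrArg s56oa_vfst hx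
    rwa [s56oa_vfst_mulVec, s56oa_vfst_smul] at this
  have e2 : s56t_fst R *ᵥ s56oa_vsnd b₀ + s56t_snd R *ᵥ s56oa_vfst b₀ =
      x.fst • s56oa_vsnd b₀ + x.snd • s56oa_vfst b₀ := by
    have := congrArg s56oa_vsnd hx
    rwa [s56oa_vsnd_mulVec, s56oa_vsnd_smul] at this
  have e3 : ∀ v : Fin 2 → k, ∃ t s : k,
      s56t_fst R *ᵥ v - z.fst • v = t • s56oa_vfst b₀ ∧
      s56t_snd R *ᵥ v - z.snd • v = t • s56oa_vsnd b₀ + s • s56oa_vfst b₀ := by
    intro v
    obtain ⟨α, hα⟩ := hz (s56oa_vinl v)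
    refine ⟨α.fst, α.snd, ?_, ?_⟩
    · have := congrArg s56oa_vfst hα
      rwa [s56oa_vfst_sub, s56oa_vfst_mulVec, s56oa_vfst_smul, s56oa_vfst_smul,
        s56oa_vfst_vinl] at this
    · have := congrArg s56oa_vsnd hα
      rw [s56oa_vsnd_sub, s56oa_vsnd_mulVec, s56oa_vsnd_smul, s56oa_vsnd_smul,
        s56oa_vsnd_vinl, s56oa_vfst_vinl, Matrix.mulVec_zero, smul_zero, zero_add,
        zero_add] at this
      exact this
  refine ⟨e1, fun v => ?_, ?_, fun v => ?_⟩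
  · obtain ⟨t, -, ht, -⟩ := e3 v
    exact ⟨t, ht⟩
  · rw [Matrix.add_mulVec, Matrix.sub_mulVec, ← Matrix.mulVec_mulVec, ← Matrix.mulVec_mulVec,
      hm, e1, Matrix.mulVec_smul, hm]
    funext i
    have := congrFun e2 i
    simp only [Pi.add_apply, Pi.smul_apply, Pi.sub_apply, smul_eq_mul] at this ⊢
    linear_combination this
  · obtain ⟨t, s, ht, hs⟩ := e3 v
    obtain ⟨t', -, ht', -⟩ := e3 (m *ᵥ v)
    refine ⟨s + t', ?_⟩
    have hBv : s56t_fst R *ᵥ v = z.fst • v + t • s56oa_vfst b₀ := by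
      rw [← ht]; abel
    rw [Matrix.add_mulVec, Matrix.sub_mulVec, ← Matrix.mulVec_mulVec, ← Matrix.mulVec_mulVec,
      hBv, Matrix.mulVec_add, Matrix.mulVec_smul, Matrix.mulVec_smul, hm]
    funext i
    have h1 := congrFun hs i
    have h2 := congrFun ht' i
    simp only [Pi.add_apply, Pi.smul_apply, Pi.sub_apply, smul_eq_mul] at h1 h2 ⊢
    linear_combination h1 + h2

/-- a nonzero vector can be sent anywhere -/
theorem s56oa_exists_mat {u : Fin 2 → k} (hu : u ≠ 0) (w : Fin 2 → k) :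
    ∃ m : Matrix (Fin 2) (Fin 2) k, m *ᵥ u = w := by
  obtain ⟨i, hi⟩ : ∃ i, u i ≠ 0 := by
    by_contra h
    simp only [not_exists, not_not] at h
    exact hu (funext h)
  refine ⟨Matrix.of fun a b => if b = i then w a * (u i)⁻¹ else 0, ?_⟩
  funext a
  simp only [Matrix.mulVec, dotProduct, Matrix.of_apply, ite_mul, zero_mul, Finset.sum_ite_eq',
    Finset.mem_univ, if_true]
  rw [mul_assoc, inv_mul_cancel₀ hi, mul_one]

/-- an eigenvalue of an invertible matrix on a nonzero vector is nonzero, and the inverse has the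
inverse eigenvalue -/
theorem s56oa_inv_eigen {B Binv : Matrix (Fin 2) (Fin 2) k} (hinv : Binv * B = 1)
    {u : Fin 2 → k} (hu : u ≠ 0) {x : k} (h : B *ᵥ u = x • u) :
    x ≠ 0 ∧ Binv *ᵥ u = x⁻¹ • u := by
  have h1 : u = x • (Binv *ᵥ u) := by
    have := congrArg (fun w => Binv *ᵥ w) h
    simp only [Matrix.mulVec_mulVec, hinv, Matrix.one_mulVec, Matrix.mulVec_smul] at this
    exact this
  have hx : x ≠ 0 := by
    intro h0
    rw [h0, zero_smul] at h1
    exact hu h1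
  refine ⟨hx, ?_⟩
  rw [h1, smul_smul, inv_mul_cancel₀ hx, one_smul, ← h1]

/-- **`W₀` form.**  If moreover `x`, `z` have no `ε`-part, then `c' = N' B⁻¹` kills `u₀` and has
image in `k u₀`. -/
theorem s56oa_core_coc (R : Matrix (Fin 2) (Fin 2) (DualNumber k)) (b₀ : Fin 2 → DualNumber k)
    (x z : DualNumber k) (m Binv : Matrix (Fin 2) (Fin 2) k)
    (hinv : Binv * s56t_fst R = 1)
    (hu : s56oa_vfst b₀ ≠ 0)
    (hm : m *ᵥ s56oa_vfst b₀ = s56oa_vsnd b₀)
    (hx : R *ᵥ b₀ = x • b₀)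
    (hz : ∀ v : Fin 2 → DualNumber k, ∃ α : DualNumber k, R *ᵥ v - z • v = α • b₀)
    (hx1 : x.snd = 0) (hz1 : z.snd = 0) :
    ((s56t_snd R + (s56t_fst R * m - m * s56t_fst R)) * Binv) *ᵥ s56oa_vfst b₀ = 0 ∧
    ∀ v : Fin 2 → k, ∃ t : k,
      ((s56t_snd R + (s56t_fst R * m - m * s56t_fst R)) * Binv) *ᵥ v = t • s56oa_vfst b₀ := by
  obtain ⟨e1, -, e3, e4⟩ := s56oa_core R b₀ x z m hm hx hz
  obtain ⟨-, hBi⟩ := s56oa_inv_eigen hinv hu e1
  constructor
  · rw [← Matrix.mulVec_mulVec, hBi, Matrix.mulVec_smul, e3, hx1, zero_smul, smul_zero]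
  · intro v
    obtain ⟨t, ht⟩ := e4 (Binv *ᵥ v)
    refine ⟨t, ?_⟩
    rw [← Matrix.mulVec_mulVec, ← ht, hz1, zero_smul, sub_zero]

/-- the determinant of a triangular endomorphism -/
theorem s56oa_det_eq {A : Type} [CommRing A] (R : Matrix (Fin 2) (Fin 2) A)
    (b : Module.Basis (Fin 2) A (Fin 2 → A)) (x z α : A)
    (hx : R *ᵥ b 0 = x • b 0) (hz : R *ᵥ b 1 - z • b 1 = α • b 0) : R.det = x * z := by
  have h1 : R.det = (LinearMap.toMatrix b b (Matrix.toLin' R)).det := by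
    rw [LinearMap.det_toMatrix, LinearMap.det_toLin']
  have c0 : Matrix.toLin' R (b 0) = x • b 0 := by rw [Matrix.toLin'_apply]; exact hx
  have c1 : Matrix.toLin' R (b 1) = z • b 1 + α • b 0 := by
    rw [Matrix.toLin'_apply, ← hz]; abel
  rw [h1, Matrix.det_fin_two]
  simp only [LinearMap.toMatrix_apply, c0, c1, map_add, map_smul, Module.Basis.repr_self,
    Finsupp.smul_apply, Finsupp.add_apply, smul_eq_mul]
  simp

/-- a square root of `1` in `k[ε]` has no `ε`-part (`2 ≠ 0`) -/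
theorem s56oa_sq_one (h2 : (2 : k) ≠ 0) (z : DualNumber k) (hz : z * z = 1) :
    z.snd = 0 ∧ z.fst * z.fst = 1 := by
  have h0 : z.fst * z.fst = 1 := by
    have := congrArg TrivSqZeroExt.fst hz
    rwa [TrivSqZeroExt.fst_mul, TrivSqZeroExt.fst_one] at this
  have h1 : z.fst * z.snd + z.snd * z.fst = 0 := by
    have := congrArg TrivSqZeroExt.snd hz
    rwa [DualNumber.snd_mul, TrivSqZeroExt.snd_one] at this
  have hz0 : z.fst ≠ 0 := fun h => by rw [h, zero_mul] at h0; exact zero_ne_one h0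
  have h3 : (2 * z.fst) * z.snd = 0 := by linear_combination h1
  exact ⟨(mul_eq_zero.mp h3).resolve_left (mul_ne_zero h2 hz0), h0⟩

/-- **uniqueness of the line**: if `M` acts by `z` modulo `k u` and has an eigenvector `u'` with
eigenvalue `x' ≠ z`, then `u' ∈ k u`. -/
theorem s56oa_line_unique (M : Matrix (Fin 2) (Fin 2) k) (u u' : Fin 2 → k) (x' z : k)
    (hz : ∀ v : Fin 2 → k, ∃ t : k, M *ᵥ v - z • v = t • u) (hx' : M *ᵥ u' = x' • u')
    (hne : x' ≠ z) : ∃ s : k, u' = s • u := by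
  obtain ⟨t, ht⟩ := hz u'
  rw [hx', ← sub_smul] at ht
  refine ⟨(x' - z)⁻¹ * t, ?_⟩
  rw [← smul_smul, ← ht, smul_smul, inv_mul_cancel₀ (sub_ne_zero.mpr hne), one_smul]

/-! ### the space `W₀ = Hom(V̄/L̄, L̄)` -/

/-- `W₀ = {N | N u₀ = 0, N v ∈ k u₀}` -/
def s56oa_W0 (u₀ : Fin 2 → k) : Submodule k (Matrix (Fin 2) (Fin 2) k) where
  carrier := {N | N *ᵥ u₀ = 0 ∧ ∀ v : Fin 2 → k, ∃ t : k, N *ᵥ v = t • u₀}
  zero_mem' := ⟨Matrix.zero_mulVec _, fun v => ⟨0, by rw [Matrix.zero_mulVec, zero_smul]⟩⟩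
  add_mem' := by
    rintro N N' ⟨h1, h2⟩ ⟨h1', h2'⟩
    refine ⟨by rw [Matrix.add_mulVec, h1, h1', add_zero], fun v => ?_⟩
    obtain ⟨t, ht⟩ := h2 v
    obtain ⟨t', ht'⟩ := h2' v
    exact ⟨t + t', by rw [Matrix.add_mulVec, ht, ht', add_smul]⟩
  smul_mem' := by
    rintro a N ⟨h1, h2⟩
    refine ⟨by rw [Matrix.smul_mulVec, h1, smul_zero], fun v => ?_⟩
    obtain ⟨t, ht⟩ := h2 v
    exact ⟨a * t, by rw [Matrix.smul_mulVec, ht, smul_smul]⟩

theorem s56oa_mem_W0 {u₀ : Fin 2 → k} {N : Matrix (Fin 2) (Fin 2) k} :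
    N ∈ s56oa_W0 u₀ ↔ N *ᵥ u₀ = 0 ∧ ∀ v : Fin 2 → k, ∃ t : k, N *ᵥ v = t • u₀ := Iff.rfl

/-- `W₀` is a conjugation-stable line on which `B` acts through `x / z` -/
theorem s56oa_W0_conj {u₀ : Fin 2 → k} {B Binv : Matrix (Fin 2) (Fin 2) k}
    (hinv' : B * Binv = 1) {x z : k} (hz0 : z ≠ 0)
    (hx : B *ᵥ u₀ = x • u₀)
    (hz : ∀ v : Fin 2 → k, ∃ t : k, B *ᵥ v - z • v = t • u₀)
    {N : Matrix (Fin 2) (Fin 2) k} (hN : N ∈ s56oa_W0 u₀) :
    B * N * Binv = (x * z⁻¹) • N := by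
  obtain ⟨hN0, hN1⟩ := hN
  have key : ∀ v : Fin 2 → k, (B * N) *ᵥ v = ((x * z⁻¹) • N * B) *ᵥ v := by
    intro v
    obtain ⟨t, ht⟩ := hz v
    obtain ⟨s, hs⟩ := hN1 v
    have hBv : B *ᵥ v = z • v + t • u₀ := by rw [← ht]; abel
    rw [← Matrix.mulVec_mulVec, ← Matrix.mulVec_mulVec, hs, Matrix.mulVec_smul, hx, hBv,
      Matrix.smul_mulVec, Matrix.mulVec_add, Matrix.mulVec_smul, Matrix.mulVec_smul, hN0, hs,
      smul_zero, add_zero, smul_smul, smul_smul, smul_smul]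
    congr 1
    field_simp
  have h1 : B * N = (x * z⁻¹) • N * B := by
    apply Matrix.toLin'.injective
    exact LinearMap.ext fun v => by rw [Matrix.toLin'_apply, Matrix.toLin'_apply]; exact key v
  rw [h1, Matrix.mul_assoc, hinv', Matrix.mul_one]

/-- the entries of an element of `W₀` -/
theorem s56oa_W0_entries {u₀ : Fin 2 → k} (hu : u₀ ≠ 0) {N : Matrix (Fin 2) (Fin 2) k}
    (hN : N ∈ s56oa_W0 u₀) :
    ∃ t0 t1 : k, (∀ i, N i 0 = t0 * u₀ i) ∧ (∀ i, N i 1 = t1 * u₀ i) ∧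
      t0 * u₀ 0 + t1 * u₀ 1 = 0 := by
  obtain ⟨hN0, hN1⟩ := hN
  obtain ⟨t0, h0⟩ := hN1 (Pi.single 0 1)
  obtain ⟨t1, h1⟩ := hN1 (Pi.single 1 1)
  rw [Matrix.mulVec_single_one] at h0 h1
  have e0 : ∀ i, N i 0 = t0 * u₀ i := fun i => by
    have := congrFun h0 i
    simpa using this
  have e1 : ∀ i, N i 1 = t1 * u₀ i := fun i => by
    have := congrFun h1 i
    simpa using this
  refine ⟨t0, t1, e0, e1, ?_⟩
  obtain ⟨i, hi⟩ : ∃ i, u₀ i ≠ 0 := by
    by_contra h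
    simp only [not_exists, not_not] at h
    exact hu (funext h)
  have := congrFun hN0 i
  simp only [Matrix.mulVec, dotProduct, Fin.sum_univ_two, e0 i, e1 i, Pi.zero_apply] at this
  have h3 : (t0 * u₀ 0 + t1 * u₀ 1) * u₀ i = 0 := by linear_combination this
  exact (mul_eq_zero.mp h3).resolve_right hi

/-- `W₀` consists of trace zero matrices -/
theorem s56oa_W0_trace {u₀ : Fin 2 → k} (hu : u₀ ≠ 0) {N : Matrix (Fin 2) (Fin 2) k}
    (hN : N ∈ s56oa_W0 u₀) : N.trace = 0 := by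
  obtain ⟨t0, t1, e0, e1, h⟩ := s56oa_W0_entries hu hN
  rw [Matrix.trace_fin_two, e0 0, e1 1]
  exact h

/-- the generator of `W₀`: `v ↦ det(v, u₀) u₀` -/
def s56oa_gen (u₀ : Fin 2 → k) : Matrix (Fin 2) (Fin 2) k :=
  Matrix.of fun i j => u₀ i * (if j = 0 then u₀ 1 else - u₀ 0)

theorem s56oa_gen_mulVec (u₀ v : Fin 2 → k) :
    s56oa_gen u₀ *ᵥ v = (v 0 * u₀ 1 - v 1 * u₀ 0) • u₀ := by
  funext i
  simp only [s56oa_gen, Matrix.mulVec, dotProduct, Fin.sum_univ_two, Matrix.of_apply,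
    Pi.smul_apply, smul_eq_mul, if_true, Fin.one_eq_zero_iff, OfNat.ofNat_ne_one, if_false]
  ring

@[simp] theorem s56oa_gen_apply_zero (u₀ : Fin 2 → k) (i : Fin 2) :
    s56oa_gen u₀ i 0 = u₀ i * u₀ 1 := by
  simp [s56oa_gen]

@[simp] theorem s56oa_gen_apply_one (u₀ : Fin 2 → k) (i : Fin 2) :
    s56oa_gen u₀ i 1 = u₀ i * (- u₀ 0) := by
  simp [s56oa_gen]

theorem s56oa_gen_mem (u₀ : Fin 2 → k) : s56oa_gen u₀ ∈ s56oa_W0 u₀ := by
  refine ⟨?_, fun v => ⟨_, s56oa_gen_mulVec u₀ v⟩⟩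
  rw [s56oa_gen_mulVec, mul_comm, sub_self, zero_smul]

/-- `W₀ = k · gen` -/
theorem s56oa_W0_eq_span {u₀ : Fin 2 → k} (hu : u₀ ≠ 0) :
    s56oa_W0 u₀ = Submodule.span k {s56oa_gen u₀} := by
  refine le_antisymm (fun N hN => ?_) ?_
  · obtain ⟨t0, t1, e0, e1, h⟩ := s56oa_W0_entries hu hN
    rw [Submodule.mem_span_singleton]
    have hcases : ∀ j : Fin 2, j = 0 ∨ j = 1 := by decide
    by_cases h0 : u₀ 0 = 0
    · have h1 : u₀ 1 ≠ 0 := by
        intro h1
        apply hu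
        funext i
        rcases hcases i with rfl | rfl
        · exact h0
        · exact h1
      have ht1 : t1 = 0 := by
        rw [h0, mul_zero, zero_add] at h
        exact (mul_eq_zero.mp h).resolve_right h1
      refine ⟨t0 / u₀ 1, ?_⟩
      ext i j
      rcases hcases j with rfl | rfl
      · rw [Matrix.smul_apply, s56oa_gen_apply_zero, smul_eq_mul, e0 i]
        field_simp
      · rw [Matrix.smul_apply, s56oa_gen_apply_one, smul_eq_mul, e1 i, ht1, h0]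
        ring
    · refine ⟨- t1 / u₀ 0, ?_⟩
      have ht0 : t0 = - t1 * u₀ 1 / u₀ 0 := by
        field_simp
        linear_combination h
      ext i j
      rcases hcases j with rfl | rfl
      · rw [Matrix.smul_apply, s56oa_gen_apply_zero, smul_eq_mul, e0 i, ht0]
        field_simp
      · rw [Matrix.smul_apply, s56oa_gen_apply_one, smul_eq_mul, e1 i]
        field_simp
  · rw [Submodule.span_le, Set.singleton_subset_iff]
    exact s56oa_gen_mem u₀

theorem s56oa_gen_ne_zero {u₀ : Fin 2 → k} (hu : u₀ ≠ 0) : s56oa_gen u₀ ≠ 0 := by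
  intro h
  have h0 := s56oa_gen_mulVec u₀ (Pi.single 0 1)
  have h1 := s56oa_gen_mulVec u₀ (Pi.single 1 1)
  rw [h, Matrix.zero_mulVec] at h0 h1
  simp only [Pi.single_eq_same, one_mul, ne_eq, one_ne_zero, not_false_eq_true,
    Pi.single_eq_of_ne, zero_mul, sub_zero, Fin.zero_ne_one, zero_sub] at h0 h1
  have a1 : u₀ 1 = 0 := by
    by_contra hne
    exact hu ((smul_eq_zero.mp h0.symm).resolve_left hne)
  have a0 : u₀ 0 = 0 := by
    by_contra hne
    exact hu ((smul_eq_zero.mp h1.symm).resolve_left (neg_ne_zero.mpr hne))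
  apply hu
  funext i
  fin_cases i
  · exact a0
  · exact a1

theorem s56oa_finrank_W0 {u₀ : Fin 2 → k} (hu : u₀ ≠ 0) :
    Module.finrank k (s56oa_W0 u₀) = 1 := by
  rw [s56oa_W0_eq_span hu]
  exact finrank_span_singleton (s56oa_gen_ne_zero hu)

/-! ### the concrete statement -/

/-- the mod `p ^ n` cyclotomic exponent of `σ` exists -/
theorem s56oa_exists_cyc (p : ℕ) [Fact p.Prime] (σ : GQ) (n : ℕ) :
    ∃ a : ℕ, ∀ μ : AlgebraicClosure ℚ, μ ^ p ^ n = 1 → σ μ = μ ^ a :=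
  ⟨_, fun μ hμ =>
    cyclotomicCharacter.spec p (MulSemiringAction.toRingAut GQ (AlgebraicClosure ℚ) σ) μ hμ⟩

theorem s56oa_natCast_eq_zero {p : ℕ} (hp : (p : k) = 0) : ((p : ℕ) : DualNumber k) = 0 := by
  ext
  · rw [TrivSqZeroExt.fst_natCast, hp, TrivSqZeroExt.fst_zero]
  · rw [TrivSqZeroExt.snd_natCast, TrivSqZeroExt.snd_zero]

/-- the matrix identity behind the change of coboundary -/
theorem s56oa_twist_eq (B Binv N m₁ : Matrix (Fin 2) (Fin 2) k) (s : k) (h : B * Binv = 1) :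
    N * Binv - (B * (-(m₁ - s • (1 : Matrix (Fin 2) (Fin 2) k))) * Binv -
      (-(m₁ - s • (1 : Matrix (Fin 2) (Fin 2) k)))) =
      (N + (B * m₁ - m₁ * B)) * Binv := by
  have h1 : m₁ * B * Binv = m₁ := by rw [Matrix.mul_assoc, h, Matrix.mul_one]
  have h2 : B * (s • (1 : Matrix (Fin 2) (Fin 2) k)) * Binv = s • 1 := by
    rw [Matrix.mul_smul, Matrix.mul_one, Matrix.smul_mul, h]
  rw [Matrix.add_mul, Matrix.sub_mul, h1, Matrix.mul_neg, Matrix.neg_mul, Matrix.mul_sub,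
    Matrix.sub_mul, h2]
  abel

/-- **[LOC-p-ORD] (A) [ALG].**  For a framed `k[ε]`-valued representation with cyclotomic
determinant which is strictly ordinary at `p` (`p = 0`, `2 ≠ 0` in `k`), and a place `P | p`:
the reduction stabilises a line `k u₀` on which the decomposition group `D_P` acts by `x̄`, with
`z̄` on the quotient, `z̄² = 1`, `z̄ = 1` on inertia, `x̄ = ω z̄`; and, after subtracting the
coboundary of a trace-zero `m`, the cocycle of `r` restricted to `D_P` takes values in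
`W₀ = Hom(V̄/L̄, L̄)`. -/
theorem s56oa_main {p : ℕ} [Fact p.Prime] (hp : (p : k) = 0) (h2 : (2 : k) ≠ 0)
    (r : FramedRep (DualNumber k))
    (hdet : r.toGaloisRepAdic.DetIsCyclotomic p)
    (hord : r.toGaloisRepAdic.IsStrictOrdinaryAt p)
    (P : ValuationSubring (AlgebraicClosure ℚ)) (hP : P.LiesOverPrime p) :
    ∃ (u₀ : Fin 2 → k) (m : Matrix (Fin 2) (Fin 2) k), u₀ ≠ 0 ∧ m.trace = 0 ∧
      ∀ σ ∈ P.decompositionSubgroup ℚ, ∃ xb zb : k,
        s56t_bar r σ *ᵥ u₀ = xb • u₀ ∧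
        (∀ v : Fin 2 → k, ∃ t : k, s56t_bar r σ *ᵥ v - zb • v = t • u₀) ∧
        zb * zb = 1 ∧
        (σ ∈ P.inertiaSubgroupIn ℚ → zb = 1) ∧
        (∀ a : ℕ, (∀ μ : AlgebraicClosure ℚ, μ ^ p = 1 → σ μ = μ ^ a) → xb = (a : k) * zb) ∧
        s56t_coc r σ - (s56t_bar r σ * m * s56t_bar r σ⁻¹ - m) ∈ s56oa_W0 u₀ := by
  obtain ⟨L, ⟨b, rfl⟩, -, hI, hxz⟩ := hord.2 P hP
  let b' : Module.Basis (Fin 2) (DualNumber k) (Fin 2 → DualNumber k) := b
  have hpA : Ideal.span {((p ^ 1 : ℕ) : DualNumber k)} = ⊥ := by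
    rw [pow_one, s56oa_natCast_eq_zero hp, Ideal.span_singleton_eq_bot]
  -- the reduction of the line is a line
  have hu₀ : s56oa_vfst (b' 0) ≠ 0 := by
    intro h
    have h1 : (DualNumber.eps : DualNumber k) • b' 0 = 0 := by
      funext i
      have hi : (b' 0 i).fst = 0 := congrFun h i
      ext
      · simp [TrivSqZeroExt.fst_mul]
      · simp [hi]
    have h3 := congrArg (fun w => b'.repr w 0) h1
    simp only [map_smul, Module.Basis.repr_self, Finsupp.smul_apply, Finsupp.single_eq_same,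
      smul_eq_mul, mul_one, map_zero, Finsupp.zero_apply] at h3
    have h4 := congrArg TrivSqZeroExt.snd h3
    simp at h4
  obtain ⟨m₁, hm⟩ := s56oa_exists_mat hu₀ (s56oa_vsnd (b' 0))
  refine ⟨s56oa_vfst (b' 0), -(m₁ - (m₁.trace / 2) • (1 : Matrix (Fin 2) (Fin 2) k)), hu₀, ?_, ?_⟩
  · rw [Matrix.trace_neg, Matrix.trace_sub, Matrix.trace_smul, Matrix.trace_one, smul_eq_mul]
    simp only [Fintype.card_fin, Nat.cast_ofNat]
    field_simp
    ring
  intro σ hσ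
  obtain ⟨x, z, h1, h2', h3⟩ := hxz σ hσ
  have hx : r σ *ᵥ b' 0 = x • b' 0 := h1 (b 0) (Submodule.mem_span_singleton_self _)
  have hz : ∀ v : Fin 2 → DualNumber k, ∃ α : DualNumber k, r σ *ᵥ v - z • v = α • b' 0 := by
    intro v
    have := h2' v
    rw [Submodule.mem_span_singleton] at this
    obtain ⟨α, hα⟩ := this
    exact ⟨α, hα.symm⟩
  obtain ⟨a, ha⟩ := s56oa_exists_cyc p σ 1
  have hxa : ∀ a' : ℕ, (∀ μ : AlgebraicClosure ℚ, μ ^ p ^ 1 = 1 → σ μ = μ ^ a') →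
      x = (a' : DualNumber k) * z := by
    intro a' ha'
    have := h3 1 a' ha'
    rwa [hpA, Ideal.mem_bot, sub_eq_zero] at this
  have hda : (r σ).det = (a : DualNumber k) := by
    have := hdet.2 1 σ a ha
    rw [hpA, Ideal.mem_bot, sub_eq_zero] at this
    rw [← this]
    exact (LinearMap.det_toLin' _).symm
  obtain ⟨α, hα⟩ := hz (b' 1)
  have hdxz : (r σ).det = x * z := s56oa_det_eq (r σ) b' x z α hx hα
  have hunit : IsUnit (r σ).det := (Matrix.isUnit_iff_isUnit_det _).mp (r.isUnit_apply σ)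
  have hzz : z * z = 1 := by
    have h5 : (r σ).det * (z * z) = (r σ).det * 1 := by
      rw [mul_one]
      nth_rewrite 2 [hdxz]
      rw [hxa a ha, ← hda]
      ring
    exact hunit.mul_left_cancel h5
  obtain ⟨hz1, hz0⟩ := s56oa_sq_one h2 z hzz
  have hx1 : x.snd = 0 := by
    rw [hxa a ha, DualNumber.snd_mul, hz1, TrivSqZeroExt.snd_natCast, mul_zero, zero_mul,
      add_zero]
  obtain ⟨e1, e2, -, -⟩ := s56oa_core (r σ) (b' 0) x z m₁ hm hx hz
  have hcoc := s56oa_core_coc (r σ) (b' 0) x z m₁ (s56t_bar r σ⁻¹) (s56t_bar_inv_mul r σ) hu₀ hm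
    hx hz hx1 hz1
  refine ⟨x.fst, z.fst, e1, e2, hz0, ?_, ?_, ?_⟩
  · intro hσI
    have k1 := hI σ hσI (b 1)
    have k2 := h2' (b 1)
    have k3 := Submodule.sub_mem _ k1 k2
    rw [Submodule.mem_span_singleton] at k3
    obtain ⟨β, hβ⟩ := k3
    have k4 : β • b 0 = (z - 1) • b 1 := by
      rw [hβ, sub_smul, one_smul]; abel
    have k5 := congrArg (fun w => b.repr w 1) k4
    simp only [map_smul, Module.Basis.repr_self, Finsupp.smul_apply, Finsupp.single_eq_same,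
      smul_eq_mul, mul_one] at k5
    rw [Finsupp.single_eq_of_ne (by decide), mul_zero] at k5
    have k6 : z = 1 := (sub_eq_zero.mp k5.symm)
    rw [k6, TrivSqZeroExt.fst_one]
  · intro a' ha'
    have := hxa a' (fun μ hμ => ha' μ (by rwa [pow_one] at hμ))
    rw [this, TrivSqZeroExt.fst_mul, TrivSqZeroExt.fst_natCast]
  · have hid := s56oa_twist_eq (s56t_bar r σ) (s56t_bar r σ⁻¹) (s56t_snd (r σ)) m₁
      (m₁.trace / 2) (s56t_bar_mul_inv r σ)
    have hc : s56t_coc r σ = s56t_snd (r σ) * s56t_bar r σ⁻¹ := rfl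
    rw [hc, hid]
    exact hcoc

end

end Fermat.Agent.S56
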