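/-
S56, node [LOC-p-ORD] (owner helper1), prefix `s56o_`: THE DIMENSION COUNT.

`s56o_main : s56o_Kum_stmt → s56a_LocPOrd_stmt`.

With `u₀` the (reduction of the) ordinary line of one strict-ordinary lift, `W₀ = Hom(V̄/L̄, L̄)`
(`s56oa_W0 u₀`, a line `k g` on which `D_p` acts through `ω`), the subspace is
`C = {c | c is a finite-level cocycle on D_p and c - ∂m ∈ W₀ on D_p for some trace-zero m}`.
* every strict-ordinary lift has its cocycle in `C` (`s56oa_main` + uniqueness of the line, which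
  uses that `ω` is ramified at `p`: `mzj_ch_main`);
* `c ↦ coef (c - ∂m)` maps `C` to the `ω`-cocycles of `D_p`, so by [KUM] the quotient of `C` by the
  coboundaries is spanned by two classes (`dim ≤ 2`);
* the trade: the coboundary of the "diagonal" matrix `Dg` of the Borel is in `W₀`; either its
  coefficient cocycle is a non-trivial relation between the two classes (`dim ≤ 1`) or a twist of
  `Dg` is a non-zero invariant (`h⁰ ≥ 1`).
-/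
import Mathlib
import Fermat.Agent.S56.Asm.Seams
import Fermat.Agent.S56.LocP.Alg
import Fermat.Agent.S56.LocP.KumSeam
import Fermat.Agent.MZ.J.ChiRam
import Fermat.Agent.S55.Places.Local
import Fermat.Agent.S14.Reduction.Cyclo

set_option autoImplicit false
set_option linter.unusedSectionVars false
set_option linter.style.haveILetI false

open Module Matrix
open Fermat.Agent.S53 ExtCitation

namespace Fermat.Agent.S56

noncomputable section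

/-! ### abstract linear algebra -/

/-- a quotient spanned by two classes has dimension `≤ 2`, and `≤ 1` if the two classes satisfy a
non-trivial relation. -/
theorem s56o_count_abs {k : Type*} [Field k] {V : Type*} [AddCommGroup V] [Module k V]
    (S : Submodule k V) (c₁ c₂ : V)
    (h : ∀ c : V, ∃ a₁ a₂ : k, c - (a₁ • c₁ + a₂ • c₂) ∈ S) :
    FiniteDimensional k (V ⧸ S) ∧ finrank k (V ⧸ S) ≤ 2 ∧
      (∀ b₁ b₂ : k, (b₁ ≠ 0 ∨ b₂ ≠ 0) → b₁ • c₁ + b₂ • c₂ ∈ S → finrank k (V ⧸ S) ≤ 1) := by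
  classical
  have hrep : ∀ q : V ⧸ S, ∃ a₁ a₂ : k, q = a₁ • S.mkQ c₁ + a₂ • S.mkQ c₂ := by
    intro q
    obtain ⟨c, rfl⟩ := S.mkQ_surjective q
    obtain ⟨a₁, a₂, ha⟩ := h c
    refine ⟨a₁, a₂, ?_⟩
    have h0 : S.mkQ (c - (a₁ • c₁ + a₂ • c₂)) = 0 := by
      rw [Submodule.mkQ_apply, Submodule.Quotient.mk_eq_zero]
      exact ha
    rw [map_sub, map_add, map_smul, map_smul, sub_eq_zero] at h0
    exact h0
  have htop : Submodule.span k ({S.mkQ c₁, S.mkQ c₂} : Set (V ⧸ S)) = ⊤ := by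
    refine eq_top_iff.2 fun q _ => ?_
    obtain ⟨a₁, a₂, rfl⟩ := hrep q
    rw [Submodule.mem_span_pair]
    exact ⟨a₁, a₂, rfl⟩
  have hfin : FiniteDimensional k (V ⧸ S) :=
    Module.finite_def.2 (htop ▸ Submodule.fg_span (Set.toFinite _))
  have hone : ∀ x : V ⧸ S, (∀ q : V ⧸ S, ∃ a : k, q = a • x) → finrank k (V ⧸ S) ≤ 1 := by
    intro x hx
    refine finrank_le_one x fun q => ?_
    obtain ⟨a, rfl⟩ := hx q
    exact ⟨a, rfl⟩
  have hsolve : ∀ (b b' : k) (x y : V ⧸ S), b ≠ 0 → b • x + b' • y = 0 →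
      x = (-(b⁻¹ * b')) • y := by
    intro b b' x y hb h0
    have h2 : b • x = -(b' • y) := eq_neg_of_add_eq_zero_left h0
    calc x = (b⁻¹ * b) • x := by rw [inv_mul_cancel₀ hb, one_smul]
      _ = b⁻¹ • (b • x) := mul_smul _ _ _
      _ = b⁻¹ • (-(b' • y)) := by rw [h2]
      _ = (-(b⁻¹ * b')) • y := by rw [smul_neg, smul_smul, neg_smul]
  refine ⟨hfin, ?_, ?_⟩
  · rw [← finrank_top k (V ⧸ S), ← htop]
    have h1 := finrank_span_finset_le_card (R := k) ({S.mkQ c₁, S.mkQ c₂} : Finset (V ⧸ S))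
    have h2 : (({S.mkQ c₁, S.mkQ c₂} : Finset (V ⧸ S)) : Set (V ⧸ S)) =
        ({S.mkQ c₁, S.mkQ c₂} : Set (V ⧸ S)) := by
      simp
    rw [h2] at h1
    exact h1.trans Finset.card_le_two
  · intro b₁ b₂ hb hrel
    have h0 : b₁ • S.mkQ c₁ + b₂ • S.mkQ c₂ = 0 := by
      have h0 : S.mkQ (b₁ • c₁ + b₂ • c₂) = 0 := by
        rw [Submodule.mkQ_apply, Submodule.Quotient.mk_eq_zero]
        exact hrel
      rw [map_add, map_smul, map_smul] at h0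
      exact h0
    rcases hb with hb | hb
    · refine hone (S.mkQ c₂) fun q => ?_
      obtain ⟨a₁, a₂, rfl⟩ := hrep q
      rw [hsolve b₁ b₂ _ _ hb h0, smul_smul, ← add_smul]
      exact ⟨_, rfl⟩
    · refine hone (S.mkQ c₁) fun q => ?_
      obtain ⟨a₁, a₂, rfl⟩ := hrep q
      rw [add_comm] at h0
      rw [hsolve b₂ b₁ _ _ hb h0, smul_smul, ← add_smul]
      exact ⟨_, rfl⟩

/-! ### the line `W₀`: coefficient functional and the diagonal matrix -/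

variable {k : Type} [Field k]

/-- a linear functional computing the coefficient of an element of `W₀ = k g` along `g`. -/
theorem s56o_exists_coef {u₀ : Fin 2 → k} (hu : u₀ ≠ 0) :
    ∃ φ : Matrix (Fin 2) (Fin 2) k →ₗ[k] k, ∀ N ∈ s56oa_W0 u₀, N = φ N • s56oa_gen u₀ := by
  have hg := s56oa_gen_ne_zero hu
  obtain ⟨i, j, hij⟩ : ∃ i j, s56oa_gen u₀ i j ≠ 0 := by
    by_contra h
    push Not at h
    exact hg (Matrix.ext h)
  refine ⟨(s56oa_gen u₀ i j)⁻¹ • Matrix.entryLinearMap k k i j, fun N hN => ?_⟩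
  rw [s56oa_W0_eq_span hu, Submodule.mem_span_singleton] at hN
  obtain ⟨t, rfl⟩ := hN
  congr 1
  rw [LinearMap.smul_apply, Matrix.entryLinearMap_apply, Matrix.smul_apply, smul_eq_mul,
    smul_eq_mul, mul_comm t, ← mul_assoc, inv_mul_cancel₀ hij, one_mul]

/-- `W₀` only depends on the line `k u₀`. -/
theorem s56o_W0_smul (u₀ : Fin 2 → k) {s : k} (hs : s ≠ 0) :
    s56oa_W0 (s • u₀) = s56oa_W0 u₀ := by
  ext N
  rw [s56oa_mem_W0, s56oa_mem_W0]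
  constructor
  · rintro ⟨h0, h1⟩
    refine ⟨?_, fun v => ?_⟩
    · rw [Matrix.mulVec_smul] at h0
      exact (smul_eq_zero.mp h0).resolve_left hs
    · obtain ⟨t, ht⟩ := h1 v
      exact ⟨t * s, by rw [ht, smul_smul]⟩
  · rintro ⟨h0, h1⟩
    refine ⟨by rw [Matrix.mulVec_smul, h0, smul_zero], fun v => ?_⟩
    obtain ⟨t, ht⟩ := h1 v
    exact ⟨t * s⁻¹, by rw [ht, smul_smul, mul_assoc, inv_mul_cancel₀ hs, mul_one]⟩

/-- the "diagonal" matrix of the Borel: trace zero, `1` on the line, `-1` on the quotient. -/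
theorem s56o_exists_Dg {u₀ : Fin 2 → k} (hu : u₀ ≠ 0) :
    ∃ Dg : Matrix (Fin 2) (Fin 2) k, Dg.trace = 0 ∧ Dg *ᵥ u₀ = u₀ ∧
      ∀ w : Fin 2 → k, ∃ t : k, Dg *ᵥ w = t • u₀ - w := by
  obtain ⟨i, hi⟩ : ∃ i, u₀ i ≠ 0 := by
    by_contra h
    push Not at h
    exact hu (funext h)
  have hℓ : (Pi.single i (u₀ i)⁻¹ : Fin 2 → k) ⬝ᵥ u₀ = 1 := by
    rw [single_dotProduct, inv_mul_cancel₀ hi]
  set ℓ : Fin 2 → k := Pi.single i (u₀ i)⁻¹ with hℓdef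
  have hmv : ∀ w : Fin 2 → k,
      ((2 : k) • Matrix.vecMulVec u₀ ℓ - 1) *ᵥ w = (2 * (ℓ ⬝ᵥ w)) • u₀ - w := by
    intro w
    rw [Matrix.sub_mulVec, Matrix.one_mulVec, Matrix.smul_mulVec, Matrix.vecMulVec_mulVec,
      op_smul_eq_smul, smul_smul]
  refine ⟨(2 : k) • Matrix.vecMulVec u₀ ℓ - 1, ?_, ?_, fun w => ⟨_, hmv w⟩⟩
  · rw [Matrix.trace_sub, Matrix.trace_smul, Matrix.trace_vecMulVec, dotProduct_comm, hℓ,
      Matrix.trace_one, Fintype.card_fin, smul_eq_mul, mul_one]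
    norm_num
  · rw [hmv, hℓ, mul_one, two_smul, add_sub_cancel_right]

/-! ### the Borel condition on the residual representation -/

/-- `rb|_D` stabilises the line `k u₀`, acting by `ω z` on it and by `z` on the quotient, with
`z² = 1`. -/
def s56o_Borel (rb : FramedResidual k) (D : Subgroup GQ) (ω : GQ → k) (u₀ : Fin 2 → k) : Prop :=
  ∀ σ ∈ D, ∃ zb : k, zb * zb = 1 ∧ rb σ *ᵥ u₀ = (ω σ * zb) • u₀ ∧
    ∀ v : Fin 2 → k, ∃ t : k, rb σ *ᵥ v - zb • v = t • u₀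

theorem s56o_rb_mul_inv (rb : FramedResidual k) (σ : GQ) : rb σ * rb σ⁻¹ = 1 := by
  rw [← rb.map_mul, mul_inv_cancel, rb.map_one]

theorem s56o_rb_inv_mul (rb : FramedResidual k) (σ : GQ) : rb σ⁻¹ * rb σ = 1 := by
  rw [← rb.map_mul, inv_mul_cancel, rb.map_one]

variable {rb : FramedResidual k} {D : Subgroup GQ} {ω : GQ → k} {u₀ : Fin 2 → k}

/-- `D` acts on `W₀` through `ω`. -/
theorem s56o_conj (hB : s56o_Borel rb D ω u₀) {σ : GQ} (hσ : σ ∈ D)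
    {N : Matrix (Fin 2) (Fin 2) k} (hN : N ∈ s56oa_W0 u₀) :
    rb σ * N * rb σ⁻¹ = ω σ • N := by
  obtain ⟨zb, hz2, hx, hz⟩ := hB σ hσ
  have hz0 : zb ≠ 0 := by
    rintro rfl
    rw [mul_zero] at hz2
    exact zero_ne_one hz2
  rw [s56oa_W0_conj (s56o_rb_mul_inv rb σ) hz0 hx hz hN, mul_assoc, mul_inv_cancel₀ hz0, mul_one]

/-- the coboundary of a matrix. -/
def s56o_d (rb : FramedResidual k) (m : Matrix (Fin 2) (Fin 2) k) (σ : GQ) :
    Matrix (Fin 2) (Fin 2) k :=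
  rb σ * m * rb σ⁻¹ - m

theorem s56o_d_mul (rb : FramedResidual k) (m : Matrix (Fin 2) (Fin 2) k) (σ τ : GQ) :
    s56o_d rb m (σ * τ) = s56o_d rb m σ + rb σ * s56o_d rb m τ * rb σ⁻¹ := by
  unfold s56o_d
  rw [_root_.mul_inv_rev, rb.map_mul, rb.map_mul, Matrix.mul_sub, Matrix.sub_mul]
  simp only [Matrix.mul_assoc]
  abel

theorem s56o_d_level (rb : FramedResidual k) (m : Matrix (Fin 2) (Fin 2) k) :
    ∃ L : IntermediateField ℚ (AlgebraicClosure ℚ), FiniteDimensional ℚ L ∧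
      ∀ σ s : GQ, (∀ x ∈ L, s x = x) → s56o_d rb m (σ * s) = s56o_d rb m σ := by
  obtain ⟨L, hL, h⟩ := rb.finiteLevel
  refine ⟨L, hL, fun σ s hs => ?_⟩
  have h1 : rb s = 1 := h s hs
  have h2 : rb s⁻¹ = 1 := by
    have := s56o_rb_inv_mul rb s
    rwa [h1, Matrix.mul_one] at this
  unfold s56o_d
  rw [_root_.mul_inv_rev, rb.map_mul, rb.map_mul, h1, h2, Matrix.mul_one, Matrix.one_mul]

theorem s56o_d_add (rb : FramedResidual k) (m m' : Matrix (Fin 2) (Fin 2) k) (σ : GQ) :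
    s56o_d rb (m + m') σ = s56o_d rb m σ + s56o_d rb m' σ := by
  unfold s56o_d
  rw [Matrix.mul_add, Matrix.add_mul]
  abel

theorem s56o_d_smul (rb : FramedResidual k) (a : k) (m : Matrix (Fin 2) (Fin 2) k) (σ : GQ) :
    s56o_d rb (a • m) σ = a • s56o_d rb m σ := by
  unfold s56o_d
  rw [Matrix.mul_smul, Matrix.smul_mul, smul_sub]

/-- on `W₀` the coboundary is multiplication by `ω - 1`. -/
theorem s56o_d_W0 (hB : s56o_Borel rb D ω u₀) {σ : GQ} (hσ : σ ∈ D)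
    {N : Matrix (Fin 2) (Fin 2) k} (hN : N ∈ s56oa_W0 u₀) :
    s56o_d rb N σ = (ω σ - 1) • N := by
  unfold s56o_d
  rw [s56o_conj hB hσ hN, sub_smul, one_smul]

/-- the coboundary of the diagonal matrix has values in `W₀` on `D`. -/
theorem s56o_d_Dg (hu : u₀ ≠ 0) (hB : s56o_Borel rb D ω u₀) {Dg : Matrix (Fin 2) (Fin 2) k}
    (h1 : Dg *ᵥ u₀ = u₀) (h2 : ∀ w : Fin 2 → k, ∃ t : k, Dg *ᵥ w = t • u₀ - w)
    {σ : GQ} (hσ : σ ∈ D) : s56o_d rb Dg σ ∈ s56oa_W0 u₀ := by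
  obtain ⟨zb, hz2, hx, hz⟩ := hB σ hσ
  obtain ⟨hx0, hxinv⟩ := s56oa_inv_eigen (s56o_rb_inv_mul rb σ) hu hx
  have hmv : ∀ w : Fin 2 → k, s56o_d rb Dg σ *ᵥ w =
      rb σ *ᵥ (Dg *ᵥ (rb σ⁻¹ *ᵥ w)) - Dg *ᵥ w := by
    intro w
    unfold s56o_d
    rw [Matrix.sub_mulVec, ← Matrix.mulVec_mulVec, ← Matrix.mulVec_mulVec]
  rw [s56oa_mem_W0]
  refine ⟨?_, fun w => ?_⟩
  · rw [hmv, hxinv, Matrix.mulVec_smul, h1, Matrix.mulVec_smul, hx, smul_smul,
      inv_mul_cancel₀ hx0, one_smul, sub_self]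
  · obtain ⟨t', ht'⟩ := h2 (rb σ⁻¹ *ᵥ w)
    obtain ⟨t, ht⟩ := h2 w
    refine ⟨t' * (ω σ * zb) - t, ?_⟩
    rw [hmv, ht', ht, Matrix.mulVec_sub, Matrix.mulVec_smul, hx, Matrix.mulVec_mulVec,
      s56o_rb_mul_inv, Matrix.one_mulVec, smul_smul, sub_smul]
    abel

/-! ### the subspace `C` and the coefficient cocycle -/

/-- `f` is, on `D`, a finite-level cocycle with values in `k(ω)` (`s56o_IsZ` for a general `ω`). -/
def s56o_IsZ' (D : Subgroup GQ) (ω : GQ → k) (f : GQ → k) : Prop :=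
  (∀ σ ∈ D, ∀ τ ∈ D, f (σ * τ) = f σ + ω σ * f τ) ∧
  ∃ L : IntermediateField ℚ (AlgebraicClosure ℚ), FiniteDimensional ℚ L ∧
    ∀ σ ∈ D, ∀ s ∈ D, (∀ x ∈ L, s x = x) → f (σ * s) = f σ

/-- the cochains which are, on `D`, finite-level cocycles with values in `W₀` up to the
coboundary of a trace-zero matrix. -/
def s56o_C (rb : FramedResidual k) (D : Subgroup GQ) (u₀ : Fin 2 → k) :
    Submodule k (GQ → Matrix (Fin 2) (Fin 2) k) where
  carrier := {c | (∀ σ ∈ D, ∀ τ ∈ D, c (σ * τ) = c σ + rb σ * c τ * rb σ⁻¹) ∧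
    (∃ L : IntermediateField ℚ (AlgebraicClosure ℚ), FiniteDimensional ℚ L ∧
      ∀ σ ∈ D, ∀ s ∈ D, (∀ x ∈ L, s x = x) → c (σ * s) = c σ) ∧
    ∃ m : Matrix (Fin 2) (Fin 2) k, m.trace = 0 ∧ ∀ σ ∈ D, c σ - s56o_d rb m σ ∈ s56oa_W0 u₀}
  add_mem' := by
    rintro c c' ⟨h1, ⟨L, hL, h2⟩, m, hm, h3⟩ ⟨h1', ⟨L', hL', h2'⟩, m', hm', h3'⟩
    refine ⟨fun σ hσ τ hτ => ?_, ⟨L ⊔ L', IntermediateField.finiteDimensional_sup L L',
      fun σ hσ s hs hsL => ?_⟩, m + m', by rw [Matrix.trace_add, hm, hm', add_zero],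
      fun σ hσ => ?_⟩
    · simp only [Pi.add_apply]
      rw [h1 σ hσ τ hτ, h1' σ hσ τ hτ, Matrix.mul_add, Matrix.add_mul]
      abel
    · simp only [Pi.add_apply]
      rw [h2 σ hσ s hs (fun x hx => hsL x ((le_sup_left : L ≤ L ⊔ L') hx)),
        h2' σ hσ s hs (fun x hx => hsL x ((le_sup_right : L' ≤ L ⊔ L') hx))]
    · have : (c + c') σ - s56o_d rb (m + m') σ =
          (c σ - s56o_d rb m σ) + (c' σ - s56o_d rb m' σ) := by
        rw [Pi.add_apply, s56o_d_add]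
        abel
      rw [this]
      exact Submodule.add_mem _ (h3 σ hσ) (h3' σ hσ)
  zero_mem' := by
    refine ⟨fun σ _ τ _ => by simp, ⟨⊥, inferInstance, fun σ _ s _ _ => rfl⟩, 0,
      Matrix.trace_zero _ _, fun σ _ => ?_⟩
    have : (0 : GQ → Matrix (Fin 2) (Fin 2) k) σ - s56o_d rb 0 σ = 0 := by
      unfold s56o_d
      simp
    rw [this]
    exact Submodule.zero_mem _
  smul_mem' := by
    rintro a c ⟨h1, ⟨L, hL, h2⟩, m, hm, h3⟩
    refine ⟨fun σ hσ τ hτ => ?_, ⟨L, hL, fun σ hσ s hs hsL => ?_⟩, a • m,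
      by rw [Matrix.trace_smul, hm, smul_zero], fun σ hσ => ?_⟩
    · simp only [Pi.smul_apply]
      rw [h1 σ hσ τ hτ, smul_add, Matrix.mul_smul, Matrix.smul_mul]
    · simp only [Pi.smul_apply]
      rw [h2 σ hσ s hs hsL]
    · have : (a • c) σ - s56o_d rb (a • m) σ = a • (c σ - s56o_d rb m σ) := by
        rw [Pi.smul_apply, s56o_d_smul, smul_sub]
      rw [this]
      exact Submodule.smul_mem _ _ (h3 σ hσ)

theorem s56o_mem_C (rb : FramedResidual k) (D : Subgroup GQ) (u₀ : Fin 2 → k)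
    (c : GQ → Matrix (Fin 2) (Fin 2) k) :
    c ∈ s56o_C rb D u₀ ↔ (∀ σ ∈ D, ∀ τ ∈ D, c (σ * τ) = c σ + rb σ * c τ * rb σ⁻¹) ∧
    (∃ L : IntermediateField ℚ (AlgebraicClosure ℚ), FiniteDimensional ℚ L ∧
      ∀ σ ∈ D, ∀ s ∈ D, (∀ x ∈ L, s x = x) → c (σ * s) = c σ) ∧
    ∃ m : Matrix (Fin 2) (Fin 2) k, m.trace = 0 ∧ ∀ σ ∈ D, c σ - s56o_d rb m σ ∈ s56oa_W0 u₀ :=
  Iff.rfl

/-- the coefficient of `c - ∂m` is an `ω`-cocycle on `D`. -/
theorem s56o_isZ_coef (hB : s56o_Borel rb D ω u₀) (φ : Matrix (Fin 2) (Fin 2) k →ₗ[k] k)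
    {c : GQ → Matrix (Fin 2) (Fin 2) k} {m : Matrix (Fin 2) (Fin 2) k}
    (h1 : ∀ σ ∈ D, ∀ τ ∈ D, c (σ * τ) = c σ + rb σ * c τ * rb σ⁻¹)
    (h2 : ∃ L : IntermediateField ℚ (AlgebraicClosure ℚ), FiniteDimensional ℚ L ∧
      ∀ σ ∈ D, ∀ s ∈ D, (∀ x ∈ L, s x = x) → c (σ * s) = c σ)
    (h3 : ∀ σ ∈ D, c σ - s56o_d rb m σ ∈ s56oa_W0 u₀) :
    s56o_IsZ' D ω (fun σ => φ (c σ - s56o_d rb m σ)) := by
  refine ⟨fun σ hσ τ hτ => ?_, ?_⟩
  · have e : c (σ * τ) - s56o_d rb m (σ * τ) =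
        (c σ - s56o_d rb m σ) + ω σ • (c τ - s56o_d rb m τ) := by
      rw [← s56o_conj hB hσ (h3 τ hτ), h1 σ hσ τ hτ, s56o_d_mul, Matrix.mul_sub, Matrix.sub_mul]
      abel
    show φ (c (σ * τ) - s56o_d rb m (σ * τ)) = _
    rw [e, map_add, map_smul, smul_eq_mul]
  · obtain ⟨L, hL, h⟩ := h2
    obtain ⟨L', hL', h'⟩ := s56o_d_level rb m
    refine ⟨L ⊔ L', IntermediateField.finiteDimensional_sup L L', fun σ hσ s hs hsL => ?_⟩
    show φ (c (σ * s) - s56o_d rb m (σ * s)) = φ (c σ - s56o_d rb m σ)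
    rw [h σ hσ s hs (fun x hx => hsL x ((le_sup_left : L ≤ L ⊔ L') hx)),
      h' σ s (fun x hx => hsL x ((le_sup_right : L' ≤ L ⊔ L') hx))]

/-- an `ω`-cocycle times the generator of `W₀` is in `C`. -/
theorem s56o_gen_mem_C (hB : s56o_Borel rb D ω u₀) {f : GQ → k} (hf : s56o_IsZ' D ω f) :
    (fun σ => f σ • s56oa_gen u₀) ∈ s56o_C rb D u₀ := by
  obtain ⟨h1, L, hL, h2⟩ := hf
  refine ⟨fun σ hσ τ hτ => ?_, ⟨L, hL, fun σ hσ s hs hsL => ?_⟩, 0, Matrix.trace_zero _ _,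
    fun σ hσ => ?_⟩
  · show f (σ * τ) • s56oa_gen u₀ = f σ • s56oa_gen u₀ + rb σ * (f τ • s56oa_gen u₀) * rb σ⁻¹
    rw [s56o_conj hB hσ (Submodule.smul_mem _ _ (s56oa_gen_mem u₀)), h1 σ hσ τ hτ, add_smul,
      smul_smul]
  · show f (σ * s) • s56oa_gen u₀ = f σ • s56oa_gen u₀
    rw [h2 σ hσ s hs hsL]
  · have : f σ • s56oa_gen u₀ - s56o_d rb 0 σ = f σ • s56oa_gen u₀ := by
      unfold s56o_d
      simp
    show f σ • s56oa_gen u₀ - s56o_d rb 0 σ ∈ s56oa_W0 u₀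
    rw [this]
    exact Submodule.smul_mem _ _ (s56oa_gen_mem u₀)

/-! ### the count -/

/-- **the count**: under the Borel condition and [KUM] for `ω`, the space `C` modulo the
coboundaries on `D` has dimension `≤ h⁰(D, ad⁰) + 1`. -/
theorem s56o_shape_abs (rb : FramedResidual k) (D : Subgroup GQ) (ω : GQ → k) (u₀ : Fin 2 → k)
    (hu : u₀ ≠ 0) (hB : s56o_Borel rb D ω u₀)
    (hK : ∃ f₁ f₂ : GQ → k, s56o_IsZ' D ω f₁ ∧ s56o_IsZ' D ω f₂ ∧ ∀ f, s56o_IsZ' D ω f →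
      ∃ a₁ a₂ x : k, ∀ σ ∈ D, f σ = a₁ * f₁ σ + a₂ * f₂ σ + (ω σ - 1) * x) :
    FiniteDimensional k (↥(s56o_C rb D u₀) ⧸ (s56a_cobOn rb D).comap (s56o_C rb D u₀).subtype) ∧
    finrank k (↥(s56o_C rb D u₀) ⧸ (s56a_cobOn rb D).comap (s56o_C rb D u₀).subtype) ≤
      finrank k (s56a_inv rb D) + 1 := by
  obtain ⟨f₁, f₂, hf₁, hf₂, hspan⟩ := hK
  obtain ⟨φ, hφ⟩ := s56o_exists_coef hu
  have hgtr : (s56oa_gen u₀).trace = 0 := s56oa_W0_trace hu (s56oa_gen_mem u₀)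
  -- the two generators
  let c₁ : ↥(s56o_C rb D u₀) := ⟨fun σ => f₁ σ • s56oa_gen u₀, s56o_gen_mem_C hB hf₁⟩
  let c₂ : ↥(s56o_C rb D u₀) := ⟨fun σ => f₂ σ • s56oa_gen u₀, s56o_gen_mem_C hB hf₂⟩
  -- key: a `W₀`-valued cochain with coefficient `a₁ f₁ + a₂ f₂ + (ω - 1) x` on `D`
  have key : ∀ (n : GQ → Matrix (Fin 2) (Fin 2) k) (a₁ a₂ x : k),
      (∀ σ ∈ D, n σ ∈ s56oa_W0 u₀) →
      (∀ σ ∈ D, φ (n σ) = a₁ * f₁ σ + a₂ * f₂ σ + (ω σ - 1) * x) →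
      ∀ σ ∈ D, n σ = a₁ • (f₁ σ • s56oa_gen u₀) + a₂ • (f₂ σ • s56oa_gen u₀) +
        s56o_d rb (x • s56oa_gen u₀) σ := by
    intro n a₁ a₂ x hn hc σ hσ
    rw [s56o_d_W0 hB hσ (Submodule.smul_mem _ _ (s56oa_gen_mem u₀)), hφ (n σ) (hn σ hσ), hc σ hσ,
      smul_smul, smul_smul, smul_smul, ← add_smul, ← add_smul]
  -- spanning
  have hsp : ∀ c : ↥(s56o_C rb D u₀), ∃ a₁ a₂ : k,
      c - (a₁ • c₁ + a₂ • c₂) ∈ (s56a_cobOn rb D).comap (s56o_C rb D u₀).subtype := by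
    rintro ⟨c, h1, h2, m, hm, h3⟩
    obtain ⟨a₁, a₂, x, hx⟩ := hspan _ (s56o_isZ_coef hB φ h1 h2 h3)
    refine ⟨a₁, a₂, ?_⟩
    rw [Submodule.mem_comap, s56a_mem_cobOn]
    refine ⟨m + x • s56oa_gen u₀, by rw [Matrix.trace_add, hm, Matrix.trace_smul, hgtr,
      smul_zero, add_zero], fun σ hσ => ?_⟩
    have e := key (fun σ => c σ - s56o_d rb m σ) a₁ a₂ x h3 hx σ hσ
    show c σ - (a₁ • (f₁ σ • s56oa_gen u₀) + a₂ • (f₂ σ • s56oa_gen u₀)) =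
      s56o_d rb (m + x • s56oa_gen u₀) σ
    rw [s56o_d_add]
    rw [sub_eq_iff_eq_add] at e ⊢
    rw [e]
    abel
  obtain ⟨hfin, hle2, hle1⟩ := s56o_count_abs _ c₁ c₂ hsp
  refine ⟨hfin, ?_⟩
  -- the trade
  obtain ⟨Dg, hDtr, hD1, hD2⟩ := s56o_exists_Dg hu
  have hDW : ∀ σ ∈ D, s56o_d rb Dg σ ∈ s56oa_W0 u₀ := fun σ hσ => s56o_d_Dg hu hB hD1 hD2 hσ
  have hβ : s56o_IsZ' D ω (fun σ => φ (s56o_d rb Dg σ - s56o_d rb 0 σ)) :=
    s56o_isZ_coef hB φ (fun σ _ τ _ => s56o_d_mul rb Dg σ τ)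
      (by
        obtain ⟨L, hL, h⟩ := s56o_d_level rb Dg
        exact ⟨L, hL, fun σ _ s _ hs => h σ s hs⟩)
      (fun σ hσ => by
        have : s56o_d rb Dg σ - s56o_d rb 0 σ = s56o_d rb Dg σ := by
          unfold s56o_d
          simp
        rw [this]
        exact hDW σ hσ)
  have hd0 : ∀ σ, s56o_d rb Dg σ - s56o_d rb 0 σ = s56o_d rb Dg σ := by
    intro σ
    unfold s56o_d
    simp
  obtain ⟨b₁, b₂, y, hy⟩ := hspan _ hβ
  simp only [hd0] at hy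
  have e := key (fun σ => s56o_d rb Dg σ) b₁ b₂ y hDW hy
  -- `m₀ = Dg - y g`
  have hm₀tr : (Dg - y • s56oa_gen u₀).trace = 0 := by
    rw [Matrix.trace_sub, hDtr, Matrix.trace_smul, hgtr, smul_zero, sub_zero]
  have hm₀u : (Dg - y • s56oa_gen u₀) *ᵥ u₀ = u₀ := by
    rw [Matrix.sub_mulVec, hD1, Matrix.smul_mulVec, (s56oa_gen_mem u₀).1, smul_zero, sub_zero]
  have hrel : ∀ σ ∈ D, b₁ • (f₁ σ • s56oa_gen u₀) + b₂ • (f₂ σ • s56oa_gen u₀) =
      s56o_d rb (Dg - y • s56oa_gen u₀) σ := by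
    intro σ hσ
    have h1 : s56o_d rb (Dg - y • s56oa_gen u₀) σ =
        s56o_d rb Dg σ - s56o_d rb (y • s56oa_gen u₀) σ := by
      rw [sub_eq_add_neg, ← neg_one_smul k (y • s56oa_gen u₀), s56o_d_add, s56o_d_smul,
        neg_one_smul, ← sub_eq_add_neg]
    rw [h1, e σ hσ]
    abel
  by_cases hb : b₁ ≠ 0 ∨ b₂ ≠ 0
  · have h1 := hle1 b₁ b₂ hb (by
      rw [Submodule.mem_comap, s56a_mem_cobOn]
      exact ⟨Dg - y • s56oa_gen u₀, hm₀tr, fun σ hσ => hrel σ hσ⟩)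
    omega
  · push Not at hb
    obtain ⟨hb1, hb2⟩ := hb
    have hinv : Dg - y • s56oa_gen u₀ ∈ s56a_inv rb D := by
      rw [s56a_mem_inv]
      refine ⟨hm₀tr, fun σ hσ => ?_⟩
      have h1 := hrel σ hσ
      rw [hb1, hb2, zero_smul, zero_smul, add_zero] at h1
      have h2 : rb σ * (Dg - y • s56oa_gen u₀) * rb σ⁻¹ = Dg - y • s56oa_gen u₀ := by
        have := h1.symm
        unfold s56o_d at this
        exact sub_eq_zero.mp this
      calc rb σ * (Dg - y • s56oa_gen u₀)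
          = rb σ * (Dg - y • s56oa_gen u₀) * (rb σ⁻¹ * rb σ) := by
            rw [s56o_rb_inv_mul, Matrix.mul_one]
        _ = (rb σ * (Dg - y • s56oa_gen u₀) * rb σ⁻¹) * rb σ := by
            rw [Matrix.mul_assoc, Matrix.mul_assoc, Matrix.mul_assoc]
        _ = (Dg - y • s56oa_gen u₀) * rb σ := by rw [h2]
    have hne : (⟨Dg - y • s56oa_gen u₀, hinv⟩ : ↥(s56a_inv rb D)) ≠ 0 := by
      intro h0
      have h1 : Dg - y • s56oa_gen u₀ = 0 := congrArg Subtype.val h0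
      rw [h1, Matrix.zero_mulVec] at hm₀u
      exact hu hm₀u.symm
    have hpos : 0 < finrank k ↥(s56a_inv rb D) :=
      Module.finrank_pos_iff_exists_ne_zero.2 ⟨_, hne⟩
    omega

/-! ### the concrete input: strict-ordinary lifts -/

/-- the ordinary data of `rb` at `padicPlace p` along the line `k u₀`. -/
def s56o_Ord (p : ℕ) [Fact p.Prime] (rb : FramedResidual k) (u₀ : Fin 2 → k) : Prop :=
  ∀ σ ∈ (padicPlace p).decompositionSubgroup ℚ, ∃ zb : k, zb * zb = 1 ∧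
    (σ ∈ (padicPlace p).inertiaSubgroupIn ℚ → zb = 1) ∧
    rb σ *ᵥ u₀ = ((cycloExp p σ : k) * zb) • u₀ ∧
    ∀ v : Fin 2 → k, ∃ t : k, rb σ *ᵥ v - zb • v = t • u₀

theorem s56o_borel_of_ord {p : ℕ} [Fact p.Prime] {rb : FramedResidual k} {u₀ : Fin 2 → k}
    (h : s56o_Ord p rb u₀) :
    s56o_Borel rb ((padicPlace p).decompositionSubgroup ℚ) (fun σ => (cycloExp p σ : k)) u₀ := by
  intro σ hσ
  obtain ⟨zb, h1, -, h3, h4⟩ := h σ hσ
  exact ⟨zb, h1, h3, h4⟩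

/-- **the data of a strict-ordinary lift** (from `s56oa_main`). -/
theorem s56o_data {p : ℕ} [Fact p.Prime] (hp2 : p ≠ 2) [Algebra (ZMod p) k]
    (rb : FramedResidual k) (r : FramedRep (DualNumber k)) (hr : ∀ σ, s56t_bar r σ = rb σ)
    (hdet : r.toGaloisRepAdic.DetIsCyclotomic p)
    (hord : r.toGaloisRepAdic.IsStrictOrdinaryAt p) :
    ∃ (u₀ : Fin 2 → k) (m : Matrix (Fin 2) (Fin 2) k), u₀ ≠ 0 ∧ m.trace = 0 ∧
      s56o_Ord p rb u₀ ∧
      ∀ σ ∈ (padicPlace p).decompositionSubgroup ℚ,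
        s56t_coc r σ - s56o_d rb m σ ∈ s56oa_W0 u₀ := by
  have hpr : p.Prime := Fact.out
  haveI : CharP k p := charP_of_injective_algebraMap (algebraMap (ZMod p) k).injective p
  have hp0 : (p : k) = 0 := CharP.cast_eq_zero k p
  have h2 : (2 : k) ≠ 0 := by
    intro h
    have h' : ((2 : ℕ) : k) = 0 := by exact_mod_cast h
    rw [CharP.cast_eq_zero_iff k p] at h'
    have := Nat.le_of_dvd (by norm_num) h'
    have := hpr.two_le
    omega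
  obtain ⟨u₀, m, hu₀, hm, h⟩ := s56oa_main hp0 h2 r hdet hord (padicPlace p)
    (Fermat.Agent.S55.pl_padicPlace_liesOver p)
  refine ⟨u₀, m, hu₀, hm, fun σ hσ => ?_, fun σ hσ => ?_⟩
  · obtain ⟨xb, zb, h1, h2, h3, h4, h5, -⟩ := h σ hσ
    rw [hr] at h1
    refine ⟨zb, h3, h4, ?_, fun v => ?_⟩
    · rw [h1, h5 (cycloExp p σ) (fun μ hμ => Fermat.Agent.S14.Reduction.apply_of_pow_eq_one p σ hμ)]
    · obtain ⟨t, ht⟩ := h2 v
      rw [hr] at ht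
      exact ⟨t, ht⟩
  · obtain ⟨xb, zb, -, -, -, -, -, h6⟩ := h σ hσ
    rw [hr, hr] at h6
    exact h6

/-- **uniqueness of the ordinary line**: `ω` is ramified at `p`, so the line is the `ω`-eigenline
of a suitable element of inertia. -/
theorem s56o_line {p : ℕ} [Fact p.Prime] (hp2 : p ≠ 2) [Algebra (ZMod p) k]
    (rb : FramedResidual k) {u₀ u₀' : Fin 2 → k} (hu' : u₀' ≠ 0)
    (h : s56o_Ord p rb u₀) (h' : s56o_Ord p rb u₀') : ∃ s : k, s ≠ 0 ∧ u₀' = s • u₀ := by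
  have hpr : p.Prime := Fact.out
  have h3 : 3 ≤ p := by
    have := hpr.two_le
    omega
  obtain ⟨σ₀, hσ₀, hne⟩ := Fermat.Agent.MZ.mzj_ch_main p h3 (padicPlace p)
    (Fermat.Agent.S55.pl_padicPlace_liesOver p)
  have hσ₀D : σ₀ ∈ (padicPlace p).decompositionSubgroup ℚ := by
    obtain ⟨x, -, rfl⟩ := hσ₀
    exact x.2
  have hne' : ((cycloExp p σ₀ : ℕ) : k) * 1 ≠ 1 := by
    rw [mul_one]
    intro h1
    apply hne
    apply (algebraMap (ZMod p) k).injective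
    rw [map_natCast, map_one, h1]
  obtain ⟨zb, -, hz1, -, hz⟩ := h σ₀ hσ₀D
  obtain ⟨zb', -, hz1', hx', -⟩ := h' σ₀ hσ₀D
  rw [hz1 hσ₀] at hz
  rw [hz1' hσ₀] at hx'
  obtain ⟨s, hs⟩ := s56oa_line_unique (rb σ₀) u₀ u₀' _ 1 hz hx' hne'
  refine ⟨s, ?_, hs⟩
  rintro rfl
  rw [zero_smul] at hs
  exact hu' hs

/-! ### the theorem -/

/-- **[LOC-p-ORD]**: the local count at `p` in the strict-ordinary case, from [KUM]. -/
theorem s56o_main (hK : s56o_Kum_stmt) : s56a_LocPOrd_stmt := by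
  intro p _ hp2 k _ _ _ rb
  by_cases hex : ∃ r : FramedRep (DualNumber k), (∀ σ, s56t_bar r σ = rb σ) ∧
      r.toGaloisRepAdic.DetIsCyclotomic p ∧ r.toGaloisRepAdic.IsStrictOrdinaryAt p
  · obtain ⟨r₀, hr₀, hdet₀, hord₀⟩ := hex
    obtain ⟨u₀, m₀, hu₀, -, hO₀, -⟩ := s56o_data hp2 rb r₀ hr₀ hdet₀ hord₀
    have hB := s56o_borel_of_ord hO₀
    have hcount := s56o_shape_abs rb ((padicPlace p).decompositionSubgroup ℚ)
      (fun σ => (cycloExp p σ : k)) u₀ hu₀ hB (hK p hp2 k)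
    refine ⟨s56o_C rb ((padicPlace p).decompositionSubgroup ℚ) u₀, fun r hr hP => ?_,
      hcount.1, hcount.2⟩
    obtain ⟨u', m', hu', hm', hO', hW'⟩ := s56o_data hp2 rb r hr hP.1 hP.2
    obtain ⟨s, hs, rfl⟩ := s56o_line hp2 rb hu' hO₀ hO'
    rw [s56o_W0_smul u₀ hs] at hW'
    refine ⟨fun σ _ τ _ => ?_, ?_, m', hm', hW'⟩
    · rw [s56t_coc_mul, hr, hr]
    · obtain ⟨L, hL, h⟩ := s56t_coc_level r
      exact ⟨L, hL, fun σ _ s _ hs => (h σ s hs).1⟩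
  · refine ⟨⊥, fun r hr hP => absurd ⟨r, hr, hP.1, hP.2⟩ hex, ?_⟩
    obtain ⟨hfin, -, hle1⟩ := s56o_count_abs
      ((s56a_cobOn rb ((padicPlace p).decompositionSubgroup ℚ)).comap
        (⊥ : Submodule k (GQ → Matrix (Fin 2) (Fin 2) k)).subtype) 0 0
      (fun c => ⟨0, 0, by
        have : c = 0 := Subsingleton.elim _ _
        rw [this]
        simp⟩)
    refine ⟨hfin, ?_⟩
    have := hle1 1 0 (Or.inl one_ne_zero) (by simp)
    omega

end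

end Fermat.Agent.S56
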