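/-
S56, node [LOC-p-ORD] (owner helper1), prefix `s56o_`: THE NODE IS CLOSED.

`s56o_final : s56a_LocPOrd_stmt` (the seam of `S56/Asm/Seams.lean`), from
* `s56o_main : s56o_Kum_stmt → s56a_LocPOrd_stmt` (`LocP/Dim.lean`, with `LocP/Alg.lean` of helper17),
* `s56k_main : s56o_Kum_stmt` (`Kum/Seam.lean`, helper23).
-/
import Mathlib
import Fermat.Agent.S56.LocP.Dim
import Fermat.Agent.S56.Kum.Seam

set_option autoImplicit false

namespace Fermat.Agent.S56

/-- **[LOC-p-ORD]**: the strict-ordinary deformations have classes in a subspace of dimension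
`≤ h⁰(D_p, ad⁰) + 1` modulo the coboundaries on `D_p`. -/
theorem s56o_final : s56a_LocPOrd_stmt := s56o_main s56k_main

end Fermat.Agent.S56
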